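import Fermat.Agent.S26.Ample.Spec
import Fermat.Agent.S26.H126.GroupCalc

/-!
# Row S26, block AMPLE, leaf AM-A1 (helper79): a nonempty symmetric affine open

`affSym : Ample.Stmt.AffSym K`: on an (integral) abelian variety `A` there is a nonempty
affine open `U` with `[-1] x ∈ U ↔ x ∈ U`.

Proof: `U := U₀ ⊓ [-1]⁻¹ U₀` for any nonempty affine open `U₀`; `A` is separated over the
affine scheme `Spec K`, so intersections of affine opens are affine, `[-1]` is an involution
(`H126.negHom_negHom`), and `A` is irreducible, so two nonempty opens meet.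
-/

set_option autoImplicit false
universe u

open CategoryTheory CategoryTheory.Limits AlgebraicGeometry NeronModelInfra GoodReductionJacobian

namespace Fermat.Agent.S26.H79

/-- In a scheme which is separated over an affine base, the intersection of two affine opens
is affine. -/
theorem isAffineOpen_inf_of_isSeparated_h79 {A B : Scheme.{u}} (f : A ⟶ B) [IsAffine B]
    [IsSeparated f] {U V : A.Opens} (hU : IsAffineOpen U) (hV : IsAffineOpen V) :
    IsAffineOpen (U ⊓ V) := by
  have h : IsAffineHom (pullback.diagonal f) := inferInstance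
  exact isAffineHom_diagonal_iff.mp h ⊤ (isAffineOpen_top _) U (by simp) V (by simp) hU hV

/-- `[-1]` of an abelian variety is an involution (scheme-level). -/
theorem negHom_comp_negHom_h79 {K : Type u} [Field K] (X : AbVar K) :
    X.negHom ≫ X.negHom = 𝟙 X.A :=
  H126.negHom_negHom X.law

/-- `[-1]` of an abelian variety is an involution (pointwise). -/
theorem negHom_negHom_apply_h79 {K : Type u} [Field K] (X : AbVar K) (x : X.A) :
    X.negHom (X.negHom x) = x := by
  have h := congrArg (fun φ : X.A ⟶ X.A => φ x) (negHom_comp_negHom_h79 X)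
  simpa using h

instance negHom_isIso_h79 {K : Type u} [Field K] (X : AbVar K) : IsIso X.negHom :=
  ⟨⟨X.negHom, negHom_comp_negHom_h79 X, negHom_comp_negHom_h79 X⟩⟩

/-- Leaf AM-A1: a nonempty symmetric affine open subset of an abelian variety. -/
theorem affSym (K : Type u) [Field K] [IsAlgClosed K] : Ample.Stmt.AffSym K := by
  intro X _
  have : IsProper X.str := X.bundle.proper
  -- a nonempty affine open
  obtain ⟨a⟩ : Nonempty X.A := inferInstance
  obtain ⟨_, ⟨U₀, hU₀, rfl⟩, haU₀, -⟩ :=
    (X.A.isBasis_affineOpens).exists_subset_of_mem_open (Set.mem_univ a) isOpen_univ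
  have hU₀aff : IsAffineOpen U₀ := hU₀
  refine ⟨U₀ ⊓ X.negHom ⁻¹ᵁ U₀, ?_, ?_, ?_⟩
  · exact isAffineOpen_inf_of_isSeparated_h79 X.str hU₀aff (hU₀aff.preimage_of_isIso X.negHom)
  · -- two nonempty opens of an irreducible space meet
    have h1 : (U₀ : Set X.A).Nonempty := ⟨a, haU₀⟩
    have h2 : ((X.negHom ⁻¹ᵁ U₀ : X.A.Opens) : Set X.A).Nonempty :=
      ⟨X.negHom a, by
        change X.negHom (X.negHom a) ∈ U₀
        rw [negHom_negHom_apply_h79]; exact haU₀⟩
    obtain ⟨x, hx1, hx2⟩ :=
      nonempty_preirreducible_inter U₀.2 (X.negHom ⁻¹ᵁ U₀).2 h1 h2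
    exact ⟨x, hx1, hx2⟩
  · intro x
    constructor
    · rintro ⟨h1, h2⟩
      refine ⟨?_, h1⟩
      have : X.negHom (X.negHom x) ∈ U₀ := h2
      rwa [negHom_negHom_apply_h79] at this
    · rintro ⟨h1, h2⟩
      refine ⟨h2, ?_⟩
      change X.negHom (X.negHom x) ∈ U₀
      rwa [negHom_negHom_apply_h79]

end Fermat.Agent.S26.H79
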